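import Fermat.Agent.Periods.Congruence.Primitive

/-!
# Injectivity and parabolicity of periods on congruence groups
-/

set_option autoImplicit false

noncomputable section

namespace Fermat.Agent.Periods.Congruence

open UpperHalfPlane CongruenceSubgroup Filter Topology Metric Function
open Matrix.SpecialLinearGroup ModularCurve ModularCurve.Period
open scoped MatrixGroups ModularForm Manifold Real Modular ComplexConjugate

variable {M : ℕ} [NeZero M] {Γ : Subgroup SL(2, ℤ)} [Γ.FiniteIndex]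

/-- Maximum principle: a holomorphic function on `ℍ` with expansions at all cusps whose real
part is `Γ`-invariant is constant up to `2πi ℤ`. -/
theorem exp_eq_of_re_invariant {H : ℍ → ℂ} (hH : HasCuspExpansion M H)
    (hinv : ∀ (γ : Γ) (z : ℍ), (H ((γ : SL(2, ℤ)) • z)).re = (H z).re) (z z' : ℍ) :
    Complex.exp (H z) = Complex.exp (H z') := by
  classical
  have : Finite (SL(2, ℤ) ⧸ Γ) := Subgroup.finite_quotient_of_finiteIndex
  have : Fintype (SL(2, ℤ) ⧸ Γ) := Fintype.ofFinite _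
  choose Φ hd hΦ using fun q : SL(2, ℤ) ⧸ Γ => hH q.out⁻¹
  -- every value of `Re H` is a value of some `Re Φ q` on a fixed closed disc
  set r := Real.exp (-2 * π * (1/2) / (M : ℝ)) with hr
  have hr1 : r < 1 := by
    rw [hr, Real.exp_lt_one_iff]
    have := Real.pi_pos
    exact div_neg_of_neg_of_pos (by linarith) natCast_pos
  have hcover : ∀ z : ℍ, ∃ q, ∃ x ∈ closedBall (0 : ℂ) r, (H z).re = (Φ q x).re := by
    intro z
    obtain ⟨g, hg⟩ := ModularGroup.exists_smul_mem_fd z
    obtain ⟨γ, hγ⟩ : ∃ γ : Γ, (QuotientGroup.mk g : SL(2, ℤ) ⧸ Γ).out = g * γ :=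
      QuotientGroup.mk_out_eq_mul Γ g
    refine ⟨QuotientGroup.mk g, Periodic.qParam M ((g • z : ℍ) : ℂ), ?_, ?_⟩
    · have h3 := ModularGroup.three_le_four_mul_im_sq_of_mem_fd hg
      have him : (1 : ℝ) / 2 ≤ ((g • z : ℍ) : ℂ).im := by
        have := (g • z).im_pos
        rw [UpperHalfPlane.coe_im]
        nlinarith
      rw [mem_closedBall, dist_zero_right, Periodic.norm_qParam, hr, Real.exp_le_exp]
      rw [div_le_div_iff_of_pos_right natCast_pos]
      nlinarith [Real.pi_pos]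
    · rw [← hΦ, hγ, mul_inv_rev, mul_smul, inv_smul_smul]
      exact (hinv γ⁻¹ z).symm
  -- the maximum over the compact cover
  have hmax : ∀ q, ∃ x ∈ closedBall (0 : ℂ) r, IsMaxOn (fun y => (Φ q y).re) (closedBall 0 r) x :=
    fun q => (isCompact_closedBall 0 r).exists_isMaxOn ⟨0, by simp [hr, (Real.exp_pos _).le]⟩
      (Complex.continuous_re.comp_continuousOn
        ((hd q).continuousOn.mono (closedBall_subset_ball hr1)))
  choose x hx hxmax using hmax
  obtain ⟨q₀, hq₀⟩ := Finite.exists_max fun q => (Φ q (x q)).re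
  set B := (Φ q₀ (x q₀)).re with hB
  have hle : ∀ z, (H z).re ≤ B := by
    intro z
    obtain ⟨q, y, hy, hz⟩ := hcover z
    rw [hz]
    exact le_trans (hxmax q hy) (hq₀ q)
  have hball : ∀ y ∈ ball (0 : ℂ) 1, (Φ q₀ y).re ≤ B := by
    intro y hy
    rcases eq_or_ne y 0 with rfl | hy0
    · exact hxmax q₀ (by simp [hr, (Real.exp_pos _).le])
    · obtain ⟨w, rfl⟩ := qParam_surj_disc (N := M) hy0 (by simpa using hy)
      rw [← hΦ]
      exact hle _
  have hconst := Complex.eqOn_of_isPreconnected_of_isMaxOn_norm (f := fun y => Complex.exp (Φ q₀ y))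
    (convex_ball (0 : ℂ) 1).isPreconnected isOpen_ball (hd q₀).cexp
    (closedBall_subset_ball hr1 (hx q₀))
    (fun y hy => by
      simp only [Set.mem_ofPred_eq, comp_apply, Complex.norm_exp]
      exact Real.exp_le_exp.mpr (hball y hy))
  have hw : ∀ z : ℍ, Complex.exp (H z) = Complex.exp (Φ q₀ (x q₀)) := by
    intro z
    have hmem : Periodic.qParam M ((q₀.out • z : ℍ) : ℂ) ∈ ball (0 : ℂ) 1 := by
      simpa using Periodic.norm_qParam_lt_one natCast_pos (q₀.out • z).im_pos
    have h := hconst hmem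
    simpa [← hΦ] using h
  rw [hw z, hw z']

/-- Eichler–Shimura injectivity, in the holomorphic ⊕ antiholomorphic form. -/
theorem per_add_conj_injective (hΓ : CongruenceSubgroup.Gamma M ≤ Γ) {f g : CuspForm Γ 2}
    (h : ∀ γ : Γ, per f (Additive.ofMul γ) + conj (per g (Additive.ofMul γ)) = 0) :
    f = 0 ∧ g = 0 := by
  obtain ⟨F, hF, hF'⟩ := exists_primitive hΓ f
  obtain ⟨G, hG, hG'⟩ := exists_primitive hΓ g
  have key : ∀ c : ℂ, c • ⇑f + conj c • ⇑g = 0 := by
    intro c
    have hH : IsPrimitive (c • ⇑f + conj c • ⇑g) (fun z => c * F z + conj c * G z) :=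
      (hF.const_smul c).add (hG.const_smul (conj c))
    refine hH.eq_zero_of_exp_const
      (exp_eq_of_re_invariant (Γ := Γ) (hasCuspExpansion_lin hF' hG' _ _) fun γ z => ?_)
    have h1 := h γ
    rw [per_eq hF γ z, per_eq hG γ z] at h1
    have h2 : ((c * (F ((γ : SL(2, ℤ)) • z) - F z + conj (G ((γ : SL(2, ℤ)) • z) - G z)))).re = 0 := by
      rw [h1, mul_zero, Complex.zero_re]
    simp [Complex.mul_re] at h2 ⊢
    linarith
  have k1 := key 1
  have k2 := key Complex.I
  constructor <;> ext τ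
  · have a := congrFun k1 τ
    have b := congrFun k2 τ
    simp at a b
    show f τ = 0
    linear_combination (1/2 : ℂ) * a + (-Complex.I/2) * b +
      ((f τ - g τ)/2) * Complex.I_mul_I
  · have a := congrFun k1 τ
    have b := congrFun k2 τ
    simp at a b
    show g τ = 0
    linear_combination (1/2 : ℂ) * a + (Complex.I/2) * b +
      (-(f τ - g τ)/2) * Complex.I_mul_I

theorem per_injective (hΓ : CongruenceSubgroup.Gamma M ≤ Γ) {f : CuspForm Γ 2}
    (h : per f = 0) : f = 0 :=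
  (per_add_conj_injective hΓ (f := f) (g := 0) fun γ => by simp [h, per_zero hΓ]).1

theorem per_eq_zero_of_eq_conj_T (hΓ : CongruenceSubgroup.Gamma M ≤ Γ) (f : CuspForm Γ 2) (γ : Γ)
    (δ : SL(2, ℤ)) (m : ℤ)
    (hγ : ∀ z : ℍ, (γ : SL(2, ℤ)) • z = (δ * ModularGroup.T ^ m * δ⁻¹) • z) :
    per f (Additive.ofMul γ) = 0 := by
  obtain ⟨F, hF, hF'⟩ := exists_primitive hΓ f
  obtain ⟨L, hL⟩ := hF'.tendsto δ
  have ht : Tendsto (fun w : ℍ => (m : ℝ) +ᵥ w) atImInfty atImInfty := by
    simp only [atImInfty, tendsto_comap_iff, comp_def, vadd_im]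
    exact tendsto_comap
  have h1 : Tendsto (fun w : ℍ => F (δ • ((m : ℝ) +ᵥ w)) - F (δ • w)) atImInfty (𝓝 (L - L)) :=
    (hL.comp ht).sub hL
  have h2 : ∀ w : ℍ, F (δ • ((m : ℝ) +ᵥ w)) - F (δ • w) = per f (Additive.ofMul γ) := by
    intro w
    rw [per_eq hF γ (δ • w), hγ, mul_smul, mul_smul, inv_smul_smul, modular_T_zpow_smul]
  simp only [h2, sub_self] at h1
  exact tendsto_nhds_unique tendsto_const_nhds h1

theorem per_isParabolicHom (hΓ : CongruenceSubgroup.Gamma M ≤ Γ) (f : CuspForm Γ 2) :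
    IsParabolicHom Γ (per f) := by
  intro γ hγ
  rw [Matrix.trace_fin_two] at hγ
  rcases sq_eq_sq_iff_eq_or_eq_neg.mp
    (show ((γ : SL(2, ℤ)) 0 0 + (γ : SL(2, ℤ)) 1 1) ^ 2 = (2 : ℤ) ^ 2 by rw [hγ]; norm_num) with h | h
  · obtain ⟨δ, m, he⟩ := exists_conj_T _ h
    exact per_eq_zero_of_eq_conj_T hΓ f γ δ m fun z => by rw [he]
  · obtain ⟨δ, m, he⟩ := exists_conj_T (-(γ : SL(2, ℤ))) (by simp; linarith)
    exact per_eq_zero_of_eq_conj_T hΓ f γ δ m fun z => by rw [← he, ModularGroup.SL_neg_smul]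

/-- Elements with `trace² < 4` have order dividing `12`. -/
theorem pow_twelve_eq_one {γ : SL(2, ℤ)}
    (h : (γ : Matrix (Fin 2) (Fin 2) ℤ).trace ^ 2 < 4) : γ ^ 12 = 1 := by
  set A := (γ : Matrix (Fin 2) (Fin 2) ℤ)
  have hdet : A.det = 1 := γ.det_coe
  have h2 : A * A = A.trace • A - 1 := by
    rw [Matrix.det_fin_two] at hdet
    ext i j
    fin_cases i <;> fin_cases j <;>
      simp [Matrix.mul_apply, Fin.sum_univ_two, Matrix.trace_fin_two, -zsmul_eq_mul] <;> linarith
  have hb1 : -1 ≤ A.trace := by nlinarith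
  have hb2 : A.trace ≤ 1 := by nlinarith
  refine Subtype.ext ?_
  show A ^ 12 = 1
  rcases (show A.trace = -1 ∨ A.trace = 0 ∨ A.trace = 1 by omega) with ht | ht | ht <;> rw [ht] at h2
  · have h3 : A ^ 3 = 1 := by
      rw [pow_succ, pow_two, h2, sub_mul, smul_mul_assoc, h2, one_mul]
      module
    rw [show 12 = 3 * 4 from rfl, pow_mul, h3, one_pow]
  · have h4 : A ^ 4 = 1 := by
      rw [show 4 = 2 * 2 from rfl, pow_mul, pow_two A, h2, zero_smul, zero_sub, neg_one_sq]
    rw [show 12 = 4 * 3 from rfl, pow_mul, h4, one_pow]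
  · have h6 : A ^ 3 = -1 := by
      rw [pow_succ, pow_two, h2, one_smul, sub_mul, one_mul, h2, one_smul]
      abel
    rw [show 12 = 3 * 4 from rfl, pow_mul, h6, show (4 : ℕ) = 2 * 2 from rfl, pow_mul, neg_one_sq,
      one_pow]

/-- Periods vanish at elliptic and parabolic elements. -/
theorem per_eq_zero_of_trace_sq_le (hΓ : CongruenceSubgroup.Gamma M ≤ Γ) (f : CuspForm Γ 2) (γ : Γ)
    (h : ((γ : SL(2, ℤ)) : Matrix (Fin 2) (Fin 2) ℤ).trace ^ 2 ≤ 4) :
    per f (Additive.ofMul γ) = 0 := by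
  rcases h.lt_or_eq with h | h
  · have h1 : γ ^ 12 = 1 := Subtype.ext (pow_twelve_eq_one h)
    have h2 := congrArg (fun x => per f (Additive.ofMul x)) h1
    simp only [ofMul_pow, map_nsmul, ofMul_one, map_zero, nsmul_eq_mul] at h2
    exact (mul_eq_zero.mp h2).resolve_left (by norm_num)
  · exact per_isParabolicHom hΓ f γ h

end Fermat.Agent.Periods.Congruence
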